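import Mathlib

/-!
# S56 / FL-LL, step II: the convolution ring `Hom_O(C, S)` of a finite free coalgebra

`C` a coalgebra over `O`, finite free as a module, `S` a commutative `O`-algebra.  The
convolution ring `WithConv (C →ₗ[O] S)` is an `S`-algebra which, as an `S`-module, is finite free;
in particular it is `J`-adically complete whenever `S` is.
-/

set_option autoImplicit false

namespace Fermat.Agent.S56.H618

open WithConv

section Module

variable {O C S : Type*} [CommRing O] [AddCommGroup C] [Module O C] [CommRing S] [Algebra O S]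

/-- Elements of `K • ⊤` take values in `K`. -/
theorem conv_apply_mem_of_mem_smul_top (K : Ideal S) {f : WithConv (C →ₗ[O] S)}
    (hf : f ∈ K • (⊤ : Submodule S (WithConv (C →ₗ[O] S)))) (c : C) : f c ∈ K := by
  refine Submodule.smul_induction_on (p := fun f => f c ∈ K) hf ?_ ?_
  · intro r hr n _
    change r • (n c) ∈ K
    exact Ideal.mul_mem_right _ _ hr
  · intro x y hx hy
    change x c + y c ∈ K
    exact Ideal.add_mem _ hx hy

/-- A linear map on a finite free module whose values on a basis lie in `K` belongs to `K • ⊤`. -/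
theorem conv_mem_smul_top_of_basis {ι : Type*} [Fintype ι] (b : Module.Basis ι O C)
    (K : Ideal S) {f : WithConv (C →ₗ[O] S)} (hf : ∀ i, f (b i) ∈ K) :
    f ∈ K • (⊤ : Submodule S (WithConv (C →ₗ[O] S))) := by
  classical
  have key : f = ∑ i, (f (b i)) • toConv ((Algebra.linearMap O S) ∘ₗ (b.coord i)) := by
    apply WithConv.ext
    apply b.ext
    intro j
    simp only [ofConv_sum, ofConv_smul, LinearMap.coe_sum, Finset.sum_apply,
      LinearMap.smul_apply, LinearMap.coe_comp, Function.comp_apply, Module.Basis.coord_apply,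
      Module.Basis.repr_self, Algebra.linearMap_apply]
    rw [Finset.sum_eq_single j]
    · simp
    · intro i _ hij
      simp [hij.symm]
    · intro h; exact absurd (Finset.mem_univ j) h
  rw [key]
  exact Submodule.sum_mem _ fun i _ => Submodule.smul_mem_smul (hf i) Submodule.mem_top

/-- A linear map on a finite free module with values in `K` belongs to `K • ⊤`. -/
theorem conv_mem_smul_top_of_apply_mem [Module.Free O C] [Module.Finite O C]
    (K : Ideal S) {f : WithConv (C →ₗ[O] S)} (hf : ∀ c, f c ∈ K) :
    f ∈ K • (⊤ : Submodule S (WithConv (C →ₗ[O] S))) :=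
  conv_mem_smul_top_of_basis (Module.Free.chooseBasis O C) K fun _ => hf _

theorem conv_mem_smul_top_iff [Module.Free O C] [Module.Finite O C]
    (K : Ideal S) {f : WithConv (C →ₗ[O] S)} :
    f ∈ K • (⊤ : Submodule S (WithConv (C →ₗ[O] S))) ↔ ∀ c, f c ∈ K :=
  ⟨fun h c => conv_apply_mem_of_mem_smul_top K h c, conv_mem_smul_top_of_apply_mem K⟩

/-- Division: a linear map with values in `(a)` is `a • g`. -/
theorem conv_exists_smul_eq [Module.Free O C] [Module.Finite O C] (a : S)
    {f : WithConv (C →ₗ[O] S)} (hf : ∀ c, f c ∈ Ideal.span {a}) :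
    ∃ g : WithConv (C →ₗ[O] S), f = a • g := by
  have h := conv_mem_smul_top_of_apply_mem (Ideal.span {a}) hf
  rw [Submodule.ideal_span_singleton_smul, Submodule.mem_smul_pointwise_iff_exists] at h
  obtain ⟨g, -, hg⟩ := h
  exact ⟨g, hg.symm⟩

/-- `Hom_O(C, S)` is `J`-adically Hausdorff if `S` is. -/
theorem conv_isHausdorff (J : Ideal S) [IsHausdorff J S] :
    IsHausdorff J (WithConv (C →ₗ[O] S)) := by
  refine ⟨fun f hf => ?_⟩
  apply WithConv.ext
  ext c
  apply IsHausdorff.haus' (I := J)
  intro n
  have h1 := hf n
  rw [SModEq.sub_mem, sub_zero] at h1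
  rw [smul_eq_mul, Ideal.mul_top, SModEq.sub_mem, sub_zero]
  exact conv_apply_mem_of_mem_smul_top _ h1 c

/-- `Hom_O(C, S)` is `J`-adically precomplete if `S` is and `C` is finite free. -/
theorem conv_isPrecomplete [Module.Free O C] [Module.Finite O C] (J : Ideal S)
    [IsPrecomplete J S] : IsPrecomplete J (WithConv (C →ₗ[O] S)) := by
  refine ⟨fun f hf => ?_⟩
  let b := Module.Free.chooseBasis O C
  have hcauchy : ∀ i, ∀ {m n : ℕ}, m ≤ n →
      f m (b i) ≡ f n (b i) [SMOD (J ^ m • ⊤ : Submodule S S)] := by
    intro i m n hmn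
    have h1 := hf hmn
    rw [SModEq.sub_mem] at h1
    rw [smul_eq_mul, Ideal.mul_top, SModEq.sub_mem]
    exact conv_apply_mem_of_mem_smul_top _ h1 (b i)
  choose s hs using fun i => IsPrecomplete.prec' (I := J) (fun n => f n (b i)) (hcauchy i)
  refine ⟨toConv (b.constr S s), fun n => ?_⟩
  rw [SModEq.sub_mem]
  apply conv_mem_smul_top_of_basis b
  intro i
  have h2 := hs i n
  rw [smul_eq_mul, Ideal.mul_top, SModEq.sub_mem] at h2
  change f n (b i) - (b.constr S s) (b i) ∈ J ^ n
  rwa [Module.Basis.constr_basis]

/-- `Hom_O(C, S)` is `J`-adically complete if `S` is and `C` is finite free. -/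
theorem conv_isAdicComplete [Module.Free O C] [Module.Finite O C] (J : Ideal S)
    [IsAdicComplete J S] : IsAdicComplete J (WithConv (C →ₗ[O] S)) :=
  { conv_isHausdorff J, conv_isPrecomplete J with }

end Module

section Ring

open TensorProduct

variable {O C C' S S' : Type*} [CommRing O] [AddCommGroup C] [Module O C] [Coalgebra O C]
  [AddCommGroup C'] [Module O C'] [Coalgebra O C']
  [CommRing S] [Algebra O S] [CommRing S'] [Algebra O S']

/-- If `p` is a non-zero-divisor of `S`, it is a non-zero-divisor of the convolution ring. -/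
theorem conv_natCast_mul_eq_zero {p : ℕ} (hreg : ∀ s : S, (p : S) * s = 0 → s = 0)
    (x : WithConv (C →ₗ[O] S)) (h : (p : WithConv (C →ₗ[O] S)) * x = 0) : x = 0 := by
  rw [← nsmul_eq_mul] at h
  apply WithConv.ext
  ext c
  apply hreg
  have h1 : (p • x).ofConv c = (0 : WithConv (C →ₗ[O] S)).ofConv c :=
    congrArg (fun f : WithConv (C →ₗ[O] S) => f.ofConv c) h
  have h2 : (p • x).ofConv c = p • (x.ofConv c) := rfl
  rw [h2, nsmul_eq_mul] at h1
  exact h1

theorem conv_algebraMap_mul (l : S) (x : WithConv (C →ₗ[O] S)) :
    algebraMap S (WithConv (C →ₗ[O] S)) l * x = l • x :=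
  (Algebra.smul_def l x).symm

/-- Post-composition with an algebra homomorphism, as a ring homomorphism of convolution rings. -/
noncomputable def convMap (π : S →ₐ[O] S') : WithConv (C →ₗ[O] S) →+* WithConv (C →ₗ[O] S') where
  toFun f := toConv (π.toLinearMap ∘ₗ f.ofConv)
  map_one' := by
    apply WithConv.ext
    ext c
    simp [LinearMap.convOne_def]
  map_mul' f g := by
    apply WithConv.ext
    exact LinearMap.algHom_comp_convMul_distrib π f g
  map_zero' := by
    apply WithConv.ext
    ext c
    simp
  map_add' f g := by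
    apply WithConv.ext
    ext c
    simp

@[simp] theorem convMap_apply (π : S →ₐ[O] S') (f : WithConv (C →ₗ[O] S)) (c : C) :
    convMap π f c = π (f c) := rfl

/-- Pre-composition with a coalgebra homomorphism, as a ring homomorphism of convolution
rings. -/
noncomputable def convComap (φ : C' →ₗc[O] C) :
    WithConv (C →ₗ[O] S) →+* WithConv (C' →ₗ[O] S) where
  toFun f := toConv (f.ofConv ∘ₗ φ.toLinearMap)
  map_one' := by
    apply WithConv.ext
    ext c
    simp [LinearMap.convOne_def]
  map_mul' f g := by
    apply WithConv.ext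
    exact LinearMap.convMul_comp_coalgHom_distrib f g φ
  map_zero' := by
    apply WithConv.ext
    ext c
    simp
  map_add' f g := by
    apply WithConv.ext
    ext c
    simp

@[simp] theorem convComap_apply (φ : C' →ₗc[O] C) (f : WithConv (C →ₗ[O] S)) (c : C') :
    convComap φ f c = f (φ c) := rfl

/-- The external product `f ↦ (x ⊗ y ↦ f x * f y)`, as a monoid homomorphism of convolution
rings. -/
noncomputable def convBox : WithConv (C →ₗ[O] S) →* WithConv (C ⊗[O] C →ₗ[O] S) where
  toFun f := toConv ((LinearMap.mul' O S) ∘ₗ (TensorProduct.map f.ofConv f.ofConv))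
  map_one' := by
    apply WithConv.ext
    ext x y
    simp [LinearMap.convOne_def, mul_comm]
  map_mul' f g := by
    apply WithConv.ext
    have h1 := TensorProduct.map_convMul_map (R := O) (f := f) (h := g) (g := f) (k := g)
    have h2 := LinearMap.algHom_comp_convMul_distrib (Algebra.TensorProduct.lmul' O (S := S))
      (toConv (TensorProduct.map f.ofConv f.ofConv))
      (toConv (TensorProduct.map g.ofConv g.ofConv))
    rw [h1] at h2
    exact h2

@[simp] theorem convBox_apply_tmul (f : WithConv (C →ₗ[O] S)) (x y : C) :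
    convBox f (x ⊗ₜ[O] y) = f x * f y := rfl

end Ring

section Bialgebra

variable {O H S : Type*} [CommRing O] [Ring H] [Bialgebra O H] [CommRing S] [Algebra O S]

/-- Evaluation at `1`, as a ring homomorphism from the convolution ring. -/
noncomputable def convEvalOne : WithConv (H →ₗ[O] S) →+* S where
  toFun f := f 1
  map_one' := by simp
  map_mul' f g := by simp [Algebra.TensorProduct.one_def]
  map_zero' := rfl
  map_add' f g := rfl

@[simp] theorem convEvalOne_apply (f : WithConv (H →ₗ[O] S)) : convEvalOne f = f 1 := rfl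

end Bialgebra

section Complete

variable {O C S : Type*} [CommRing O] [AddCommGroup C] [Module O C] [Coalgebra O C]
  [Coalgebra.IsCocomm O C] [CommRing S] [Algebra O S]

/-- The convolution ring `Hom_O(C, S)` of a finite free cocommutative coalgebra is adically
complete for the ideal generated by `J`, if `S` is `J`-adically complete. -/
theorem conv_isAdicComplete_map [Module.Free O C] [Module.Finite O C] (J : Ideal S)
    [IsAdicComplete J S] :
    IsAdicComplete (J.map (algebraMap S (WithConv (C →ₗ[O] S)))) (WithConv (C →ₗ[O] S)) :=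
  haveI := conv_isAdicComplete (O := O) (C := C) J
  (IsAdicComplete.map_algebraMap_iff (I := J) (S := WithConv (C →ₗ[O] S))
    (M := WithConv (C →ₗ[O] S))).mpr inferInstance

end Complete

end Fermat.Agent.S56.H618
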