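import Fermat.Agent.S56.H618.LiftRing
import Fermat.Agent.S56.H618.LiftConv

/-!
# S56 / FL-LL: the lifting lemma for finite flat group schemes killed by `p`

`O` a commutative ring, `H` a commutative cocommutative bialgebra over `O`, finite free as an
`O`-module and killed by `p` (`id ^ p = 1` in the convolution ring `End_O(H)`).
`S` a commutative `O`-algebra, `J`-adically complete, in which `p` is a non-zero-divisor, and
`l, m ∈ J` with `l ^ (p - 1) = p * m`.

* `conv_eq_one_of_pow_eq_one` **(A)**: in `Hom_O(C, S)` (convolution ring of a finite free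
  cocommutative coalgebra), `z ^ p = 1` and `z ≡ 1 mod l` imply `z = 1`.
* `conv_exists_pow_eq` **(B)**: every `1 + p l b` is a `p`-th power `(1 + l Z) ^ p`.
* `algHom_eq_of_sub_mem` **(C, uniqueness)**: two points `u u' : H →ₐ[O] S` which agree modulo `l`
  are equal.
* `exists_algHom_of_linearMap` **(C, existence)**: a linear map `u₀ : H →ₗ[O] S` which is an
  algebra homomorphism modulo `p l` agrees modulo `l` with an algebra homomorphism `u`.
* `existsUnique_algHom_lift`: every point `ū : H →ₐ[O] S ⧸ (p l)` has a unique lift modulo `l`.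
-/

set_option autoImplicit false

namespace Fermat.Agent.S56.H618

open WithConv TensorProduct

section A

variable {O C S : Type*} [CommRing O] [AddCommGroup C] [Module O C] [Coalgebra O C]
  [Coalgebra.IsCocomm O C] [Module.Free O C] [Module.Finite O C] [CommRing S] [Algebra O S]

/-- **(A)** for the convolution ring: a `p`-th root of unity congruent to `1` modulo `l`
is `1`. -/
theorem conv_eq_one_of_pow_eq_one (J : Ideal S) [IsAdicComplete J S] {p : ℕ} (hp : p.Prime)
    (hreg : ∀ s : S, (p : S) * s = 0 → s = 0) {l m : S} (hl : l ∈ J) (hm : m ∈ J)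
    (hlm : l ^ (p - 1) = p * m) {z x : WithConv (C →ₗ[O] S)} (hz : z - 1 = l • x)
    (h : z ^ p = 1) : z = 1 := by
  have := conv_isAdicComplete_map (O := O) (C := C) J
  have hjac := IsAdicComplete.le_jacobson_bot (J.map (algebraMap S (WithConv (C →ₗ[O] S))))
  refine eq_one_of_pow_eq_one_of_sub_one_eq_mul hp (conv_natCast_mul_eq_zero hreg)
    (L := algebraMap S _ l) (M := algebraMap S _ m) (hjac (Ideal.mem_map_of_mem _ hl))
    (hjac (Ideal.mem_map_of_mem _ hm)) ?_ (x := x) ?_ h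
  · rw [← map_pow, hlm, map_mul, map_natCast]
  · rw [hz, conv_algebraMap_mul]

/-- **(A)**, pointwise form. -/
theorem conv_eq_one_of_pow_eq_one' (J : Ideal S) [IsAdicComplete J S] {p : ℕ} (hp : p.Prime)
    (hreg : ∀ s : S, (p : S) * s = 0 → s = 0) {l m : S} (hl : l ∈ J) (hm : m ∈ J)
    (hlm : l ^ (p - 1) = p * m) {z : WithConv (C →ₗ[O] S)}
    (hz : ∀ c, z c - (1 : WithConv (C →ₗ[O] S)) c ∈ Ideal.span {l})
    (h : z ^ p = 1) : z = 1 := by
  obtain ⟨x, hx⟩ := conv_exists_smul_eq l (f := z - 1) hz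
  exact conv_eq_one_of_pow_eq_one J hp hreg hl hm hlm hx h

/-- **(B)** for the convolution ring: `1 + p l b` is a `p`-th power of an element `1 + l Z`. -/
theorem conv_exists_pow_eq (J : Ideal S) [IsAdicComplete J S] {p : ℕ} (hp : p.Prime)
    {l m : S} (hl : l ∈ J) (hm : m ∈ J) (hlm : l ^ (p - 1) = p * m)
    (b : WithConv (C →ₗ[O] S)) :
    ∃ Z : WithConv (C →ₗ[O] S), (1 + l • Z) ^ p = 1 + ((p : S) * l) • b := by
  have := conv_isAdicComplete_map (O := O) (C := C) J
  obtain ⟨Z, hZ⟩ := exists_one_add_pow_eq (J.map (algebraMap S (WithConv (C →ₗ[O] S)))) hp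
    (L := algebraMap S _ l) (M := algebraMap S _ m) (Ideal.mem_map_of_mem _ hl)
    (Ideal.mem_map_of_mem _ hm) (by rw [← map_pow, hlm, map_mul, map_natCast]) b
  refine ⟨Z, ?_⟩
  rw [← conv_algebraMap_mul, hZ, ← conv_algebraMap_mul, map_mul, map_natCast]

end A

section K

variable {O H T : Type*} [CommRing O] [CommRing H] [Bialgebra O H] [CommRing T] [Algebra O T]

/-- If `H` is killed by `n`, every point of `H` is killed by `n`. -/
theorem conv_algHom_pow_eq_one {n : ℕ}
    (hkill : (toConv (LinearMap.id : H →ₗ[O] H)) ^ n = 1) (v : H →ₐ[O] T) :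
    (toConv v.toLinearMap) ^ n = 1 := by
  have h1 : convMap v (toConv (LinearMap.id : H →ₗ[O] H)) = toConv v.toLinearMap := by
    apply WithConv.ext
    ext c
    rfl
  rw [← h1, ← map_pow, hkill, map_one]

end K

section C

variable {O H S : Type*} [CommRing O] [CommRing H] [Bialgebra O H] [Coalgebra.IsCocomm O H]
  [Module.Free O H] [Module.Finite O H] [CommRing S] [Algebra O S]

/-- **(C), uniqueness**: two points of `H` with values in `S` which agree modulo `l` are
equal. -/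
theorem algHom_eq_of_sub_mem (J : Ideal S) [IsAdicComplete J S] {p : ℕ} (hp : p.Prime)
    (hreg : ∀ s : S, (p : S) * s = 0 → s = 0) {l m : S} (hl : l ∈ J) (hm : m ∈ J)
    (hlm : l ^ (p - 1) = p * m)
    (hkill : (toConv (LinearMap.id : H →ₗ[O] H)) ^ p = 1)
    (u u' : H →ₐ[O] S) (h : ∀ x, u' x - u x ∈ Ideal.span {l}) : u' = u := by
  set U : WithConv (H →ₗ[O] S) := toConv u.toLinearMap with hU
  set U' : WithConv (H →ₗ[O] S) := toConv u'.toLinearMap with hU'
  have hUp : U ^ p = 1 := conv_algHom_pow_eq_one hkill u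
  have hU'p : U' ^ p = 1 := conv_algHom_pow_eq_one hkill u'
  have hpp : p - 1 + 1 = p := Nat.sub_add_cancel hp.one_le
  have hUU : U * U ^ (p - 1) = 1 := by rw [← pow_succ', hpp, hUp]
  obtain ⟨g, hg⟩ := conv_exists_smul_eq l (f := U' - U) h
  have hz : U' * U ^ (p - 1) - 1 = l • (g * U ^ (p - 1)) := by
    rw [← hUU, ← sub_mul, hg, smul_mul_assoc]
  have hzp : (U' * U ^ (p - 1)) ^ p = 1 := by
    rw [mul_pow, hU'p, one_mul, ← pow_mul, mul_comm, pow_mul, hUp, one_pow]
  have hz1 := conv_eq_one_of_pow_eq_one J hp hreg hl hm hlm hz hzp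
  have hEq : U' = U := by
    calc U' = U' * (U * U ^ (p - 1)) := by rw [hUU, mul_one]
      _ = (U' * U ^ (p - 1)) * U := by ring
      _ = U := by rw [hz1, one_mul]
  apply AlgHom.toLinearMap_injective
  exact congrArg WithConv.ofConv hEq

/-- **(C), existence**: a linear map `u₀ : H → S` which is an algebra homomorphism modulo `p l`
agrees modulo `l` with an algebra homomorphism. -/
theorem exists_algHom_of_linearMap (J : Ideal S) [IsAdicComplete J S] {p : ℕ} (hp : p.Prime)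
    (hreg : ∀ s : S, (p : S) * s = 0 → s = 0) {l m : S} (hl : l ∈ J) (hm : m ∈ J)
    (hlm : l ^ (p - 1) = p * m)
    (hkill : (toConv (LinearMap.id : H →ₗ[O] H)) ^ p = 1)
    (u₀ : H →ₗ[O] S) (h1 : u₀ 1 - 1 ∈ Ideal.span {(p : S) * l})
    (hmul : ∀ x y, u₀ (x * y) - u₀ x * u₀ y ∈ Ideal.span {(p : S) * l}) :
    ∃ u : H →ₐ[O] S, ∀ x, u x - u₀ x ∈ Ideal.span {l} := by
  classical
  have hpp : p - 1 + 1 = p := Nat.sub_add_cancel hp.one_le
  have hle : Ideal.span {(p : S) * l} ≤ Ideal.span {l} := by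
    rw [Ideal.span_singleton_le_iff_mem]
    exact Ideal.mul_mem_left _ _ (Ideal.subset_span rfl)
  -- the reduction of `u₀` modulo `p l` is an algebra homomorphism
  let π : S →ₐ[O] S ⧸ Ideal.span {(p : S) * l} := Ideal.Quotient.mkₐ O _
  let ū : H →ₐ[O] S ⧸ Ideal.span {(p : S) * l} := AlgHom.ofLinearMap (π.toLinearMap ∘ₗ u₀)
    (by
      change Ideal.Quotient.mk _ (u₀ 1) = 1
      rw [← map_one (Ideal.Quotient.mk (Ideal.span {(p : S) * l}))]
      exact Ideal.Quotient.eq.mpr h1)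
    (by
      intro x y
      change Ideal.Quotient.mk _ (u₀ (x * y)) =
        Ideal.Quotient.mk _ (u₀ x) * Ideal.Quotient.mk _ (u₀ y)
      rw [← map_mul]
      exact Ideal.Quotient.eq.mpr (hmul x y))
  set U₀ : WithConv (H →ₗ[O] S) := toConv u₀ with hU₀def
  have hπU₀ : convMap π U₀ = toConv ū.toLinearMap := by
    apply WithConv.ext
    ext c
    rfl
  have ha : ∀ c, (U₀ ^ p - 1) c ∈ Ideal.span {(p : S) * l} := by
    intro c
    have h2 : convMap π (U₀ ^ p) = convMap π 1 := by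
      rw [map_pow, hπU₀, conv_algHom_pow_eq_one hkill ū, map_one]
    have h3 : π ((U₀ ^ p) c) = π ((1 : WithConv (H →ₗ[O] S)) c) :=
      congrArg (fun f : WithConv (H →ₗ[O] S ⧸ Ideal.span {(p : S) * l}) => f c) h2
    exact Ideal.Quotient.eq.mp h3
  obtain ⟨b, hb⟩ := conv_exists_smul_eq ((p : S) * l) (f := U₀ ^ p - 1) ha
  -- `a := U₀ ^ p` is a unit
  have := conv_isAdicComplete_map (O := O) (C := H) J
  have hjac := IsAdicComplete.le_jacobson_bot (J.map (algebraMap S (WithConv (H →ₗ[O] S))))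
  have hunit : IsUnit (U₀ ^ p) := by
    have h2 : algebraMap S (WithConv (H →ₗ[O] S)) ((p : S) * l) ∈
        (⊥ : Ideal (WithConv (H →ₗ[O] S))).jacobson :=
      hjac (Ideal.mem_map_of_mem _ (Ideal.mul_mem_left _ _ hl))
    have h3 := Ideal.mem_jacobson_bot.mp h2 b
    have h4 : U₀ ^ p = algebraMap S (WithConv (H →ₗ[O] S)) ((p : S) * l) * b + 1 := by
      rw [conv_algebraMap_mul, ← hb]; ring
    rw [h4]
    exact h3
  obtain ⟨a', ha'⟩ := hunit.exists_right_inv
  have ha'1 : a' = 1 + ((p : S) * l) • (-(b * a')) := by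
    have h2 : a' - 1 = (1 - U₀ ^ p) * a' := by rw [sub_mul, one_mul, ha']
    have h3 : (1 : WithConv (H →ₗ[O] S)) - U₀ ^ p = -(((p : S) * l) • b) := by
      rw [← hb]; ring
    rw [h3, neg_mul, smul_mul_assoc, ← smul_neg] at h2
    rw [← h2]; ring
  obtain ⟨Z, hZ⟩ := conv_exists_pow_eq (O := O) (C := H) J hp hl hm hlm (-(b * a'))
  rw [← ha'1] at hZ
  -- the corrected map
  set U : WithConv (H →ₗ[O] S) := U₀ * (1 + l • Z) with hUdef
  have hUp : U ^ p = 1 := by rw [hUdef, mul_pow, hZ, ha']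
  have hUU₀ : ∀ x, U x - u₀ x ∈ Ideal.span {l} := by
    intro x
    have h2 : U - U₀ = l • (U₀ * Z) := by
      rw [hUdef, mul_add, mul_one, add_sub_cancel_left, mul_smul_comm]
    have h3 : (U - U₀) x = l • ((U₀ * Z) x) :=
      congrArg (fun f : WithConv (H →ₗ[O] S) => f x) h2
    have h4 : U x - u₀ x = l • ((U₀ * Z) x) := h3
    rw [h4, smul_eq_mul]
    exact Ideal.mul_mem_right _ _ (Ideal.subset_span rfl)
  -- `U 1 = 1`
  have hjacS := IsAdicComplete.le_jacobson_bot J
  have hU1 : U 1 = 1 := by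
    have h2 : (U 1) ^ p = 1 := by
      have h3 := congrArg (convEvalOne (O := O) (H := H) (S := S)) hUp
      rw [map_pow, map_one] at h3
      exact h3
    have h4 : U 1 - 1 ∈ Ideal.span {l} := by
      have h5 : U 1 - 1 = (U 1 - u₀ 1) + (u₀ 1 - 1) := by ring
      rw [h5]
      exact Ideal.add_mem _ (hUU₀ 1) (hle h1)
    obtain ⟨s, hs⟩ := Ideal.mem_span_singleton'.mp h4
    exact eq_one_of_pow_eq_one_of_sub_one_eq_mul hp hreg (hjacS hl) (hjacS hm) hlm
      (z := U 1) (x := s) (by rw [← hs, mul_comm]) h2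
  -- multiplicativity
  set A₁ : WithConv (H ⊗[O] H →ₗ[O] S) := convComap (Bialgebra.mulCoalgHom O H) U with hA₁def
  set A₂ : WithConv (H ⊗[O] H →ₗ[O] S) := convBox U with hA₂def
  have hA₁ : A₁ ^ p = 1 := by rw [hA₁def, ← map_pow, hUp, map_one]
  have hA₂ : A₂ ^ p = 1 := by rw [hA₂def, ← map_pow, hUp, map_one]
  have hdiff : ∀ t, (A₁ - A₂) t ∈ Ideal.span {l} := by
    intro t
    induction t using TensorProduct.induction_on with
    | zero =>
      have : (A₁ - A₂) (0 : H ⊗[O] H) = 0 := map_zero (A₁ - A₂).ofConv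
      rw [this]
      exact Ideal.zero_mem _
    | tmul x y =>
      have h2 : (A₁ - A₂) (x ⊗ₜ[O] y) = U (x * y) - U x * U y := rfl
      have h3 : U (x * y) - U x * U y = (U (x * y) - u₀ (x * y)) + (u₀ (x * y) - u₀ x * u₀ y)
          - ((U x - u₀ x) * U y + u₀ x * (U y - u₀ y)) := by ring
      rw [h2, h3]
      exact Ideal.sub_mem _ (Ideal.add_mem _ (hUU₀ _) (hle (hmul x y)))
        (Ideal.add_mem _ (Ideal.mul_mem_right _ _ (hUU₀ x)) (Ideal.mul_mem_left _ _ (hUU₀ y)))
    | add t t' ht ht' =>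
      have : (A₁ - A₂) (t + t') = (A₁ - A₂) t + (A₁ - A₂) t' := map_add (A₁ - A₂).ofConv t t'
      rw [this]
      exact Ideal.add_mem _ ht ht'
  obtain ⟨g, hg⟩ := conv_exists_smul_eq l (f := A₁ - A₂) hdiff
  have hA₂' : A₂ * A₂ ^ (p - 1) = 1 := by rw [← pow_succ', hpp, hA₂]
  have hw : A₁ * A₂ ^ (p - 1) - 1 = l • (g * A₂ ^ (p - 1)) := by
    rw [← hA₂', ← sub_mul, hg, smul_mul_assoc]
  have hwp : (A₁ * A₂ ^ (p - 1)) ^ p = 1 := by
    rw [mul_pow, hA₁, one_mul, ← pow_mul, mul_comm, pow_mul, hA₂, one_pow]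
  have hw1 := conv_eq_one_of_pow_eq_one J hp hreg hl hm hlm hw hwp
  have hA : A₁ = A₂ := by
    calc A₁ = A₁ * (A₂ * A₂ ^ (p - 1)) := by rw [hA₂', mul_one]
      _ = (A₁ * A₂ ^ (p - 1)) * A₂ := by ring
      _ = A₂ := by rw [hw1, one_mul]
  have hmulU : ∀ x y, U.ofConv (x * y) = U.ofConv x * U.ofConv y := by
    intro x y
    exact congrArg (fun f : WithConv (H ⊗[O] H →ₗ[O] S) => f (x ⊗ₜ[O] y)) hA
  exact ⟨AlgHom.ofLinearMap U.ofConv hU1 hmulU, hUU₀⟩

/-- **(C)**: every point `ū : H → S ⧸ (p l)` has a unique lift modulo `l` to a point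
`u : H → S`. -/
theorem existsUnique_algHom_lift (J : Ideal S) [IsAdicComplete J S] {p : ℕ} (hp : p.Prime)
    (hreg : ∀ s : S, (p : S) * s = 0 → s = 0) {l m : S} (hl : l ∈ J) (hm : m ∈ J)
    (hlm : l ^ (p - 1) = p * m)
    (hkill : (toConv (LinearMap.id : H →ₗ[O] H)) ^ p = 1)
    (hle : Ideal.span {(p : S) * l} ≤ Ideal.span {l})
    (ū : H →ₐ[O] S ⧸ Ideal.span {(p : S) * l}) :
    ∃! u : H →ₐ[O] S, ∀ x, Ideal.Quotient.mk (Ideal.span {l}) (u x) =
      Ideal.Quotient.factor hle (ū x) := by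
  obtain ⟨u₀, hu₀⟩ := Module.projective_lifting_property
    (Ideal.Quotient.mkₐ O (Ideal.span {(p : S) * l})).toLinearMap ū.toLinearMap
    (Ideal.Quotient.mkₐ_surjective O _)
  have hu₀' : ∀ x, Ideal.Quotient.mk (Ideal.span {(p : S) * l}) (u₀ x) = ū x := fun x =>
    congrArg (fun f : H →ₗ[O] S ⧸ Ideal.span {(p : S) * l} => f x) hu₀
  have h1 : u₀ 1 - 1 ∈ Ideal.span {(p : S) * l} := by
    apply Ideal.Quotient.eq.mp
    rw [hu₀', map_one, map_one]
  have hmul : ∀ x y, u₀ (x * y) - u₀ x * u₀ y ∈ Ideal.span {(p : S) * l} := by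
    intro x y
    apply Ideal.Quotient.eq.mp
    rw [hu₀' (x * y), map_mul ū, map_mul (Ideal.Quotient.mk (Ideal.span {(p : S) * l})),
      hu₀' x, hu₀' y]
  obtain ⟨u, hu⟩ := exists_algHom_of_linearMap J hp hreg hl hm hlm hkill u₀ h1 hmul
  have hu' : ∀ x, Ideal.Quotient.mk (Ideal.span {l}) (u x) =
      Ideal.Quotient.factor hle (ū x) := by
    intro x
    rw [← hu₀', Ideal.Quotient.factor_mk]
    exact Ideal.Quotient.eq.mpr (hu x)
  refine ⟨u, hu', fun u' h' => ?_⟩
  apply algHom_eq_of_sub_mem J hp hreg hl hm hlm hkill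
  intro x
  apply Ideal.Quotient.eq.mp
  rw [h' x, hu' x]

end C

section Kill

variable {O H : Type*} [CommRing O] [CommRing H] [Bialgebra O H]

/-- The hypothesis "killed by `n`" may be checked in the convolution monoid of algebra
endomorphisms. -/
theorem toConv_linearMap_id_pow_eq_one {n : ℕ}
    (h : (toConv (AlgHom.id O H)) ^ n = 1) :
    (toConv (LinearMap.id : H →ₗ[O] H)) ^ n = 1 := by
  have h1 := congrArg (fun f : WithConv (H →ₐ[O] H) => toConv f.ofConv.toLinearMap) h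
  simp only [AlgHom.toLinearMap_convPow, AlgHom.toLinearMap_convOne] at h1
  exact h1

end Kill

end Fermat.Agent.S56.H618
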