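import Mathlib

/-!
# S56 / FL-LL, step I: `p`-th roots of unity and `p`-th roots near `1` in a commutative ring

`R` a commutative ring, `p` a prime, `L M : R` with `L ^ (p - 1) = p * M`.

* `eq_zero_of_one_add_pow_eq_one` (A): if `L, M` lie in the Jacobson radical and `p` is a
  non-zero-divisor of `R`, then `(1 + L * x) ^ p = 1` forces `L * x = 0`.
* `exists_one_add_pow_eq` (B): if `R` is `I`-adically complete and `L, M ∈ I`, then every element
  `1 + p * L * b` is a `p`-th power `(1 + L * Z) ^ p`.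
-/

set_option autoImplicit false

namespace Fermat.Agent.S56.H618

open Polynomial

/-- The polynomial identity `(1 + X)^p = 1 + X^p + p X (1 + X G)` over `ℤ`. -/
theorem exists_poly_one_add_pow {p : ℕ} (hp : p.Prime) :
    ∃ G : ℤ[X], (1 + X : ℤ[X]) ^ p = 1 + X ^ p + C (p : ℤ) * X * (1 + X * G) := by
  obtain ⟨r, hr⟩ := exists_add_pow_prime_eq hp (1 : ℤ[X]) X
  have hp2 : 2 ≤ p := hp.two_le
  have h0 : r.coeff 0 = 1 := by
    have h1 := congrArg (fun q : ℤ[X] => q.coeff 1) hr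
    simp only [coeff_one_add_X_pow, Nat.choose_one_right, one_pow, mul_one, coeff_add,
      coeff_X_pow] at h1
    have h2 : ((p : ℤ[X]) * X * r).coeff 1 = (p : ℤ) * r.coeff 0 := by
      have : (p : ℤ[X]) * X * r = C (p : ℤ) * (r * X) := by
        rw [show (p : ℤ[X]) = C (p : ℤ) from (map_natCast C p).symm]; ring
      rw [this, coeff_C_mul, coeff_mul_X]
    rw [h2] at h1
    have h3 : (1 : ℤ[X]).coeff 1 = 0 := by
      rw [coeff_one]; simp
    rw [h3, if_neg (by omega)] at h1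
    have hp0 : (p : ℤ) ≠ 0 := by exact_mod_cast hp.ne_zero
    have h4 : (p : ℤ) * r.coeff 0 = (p : ℤ) * 1 := by
      rw [mul_one]; simpa using h1.symm
    exact mul_left_cancel₀ hp0 h4
  refine ⟨r.divX, ?_⟩
  have hr' : r = 1 + X * r.divX := by
    conv_lhs => rw [← divX_mul_X_add r, h0]
    simp only [map_one]; ring
  rw [hr, one_pow, mul_one, ← hr']
  rw [show (p : ℤ[X]) = C (p : ℤ) from (map_natCast C p).symm]

/-- The identity `(1 + y)^p = 1 + y^p + p y (1 + y g)` in any commutative ring. -/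
theorem one_add_pow_eq_of_poly {R : Type*} [CommRing R] {p : ℕ} {G : ℤ[X]}
    (hG : (1 + X : ℤ[X]) ^ p = 1 + X ^ p + C (p : ℤ) * X * (1 + X * G)) (y : R) :
    (1 + y) ^ p = 1 + y ^ p + (p : R) * y * (1 + y * aeval y G) := by
  have := congrArg (aeval y) hG
  simpa using this

/-- `(L x)^p = p (L x) (M x^(p-1))` when `L^(p-1) = p M`. -/
theorem mul_pow_eq_of_pow_pred {R : Type*} [CommRing R] {p : ℕ} (hp : p.Prime) {L M : R}
    (hLM : L ^ (p - 1) = p * M) (x : R) :
    (L * x) ^ p = (p : R) * (L * x) * (M * x ^ (p - 1)) := by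
  have hpp : p = (p - 1) + 1 := (Nat.sub_add_cancel hp.one_le).symm
  calc (L * x) ^ p = (L * x) ^ (p - 1 + 1) := by rw [← hpp]
    _ = L ^ (p - 1) * x ^ (p - 1) * (L * x) := by rw [pow_succ, mul_pow]
    _ = _ := by rw [hLM]; ring

/-- Key identity: `(1 + L x)^p = 1 + p L (x + (M x^p + L x^2 g(L x)))`. -/
theorem one_add_mul_pow_eq {R : Type*} [CommRing R] {p : ℕ} (hp : p.Prime) {G : ℤ[X]}
    (hG : (1 + X : ℤ[X]) ^ p = 1 + X ^ p + C (p : ℤ) * X * (1 + X * G)) {L M : R}
    (hLM : L ^ (p - 1) = p * M) (x : R) :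
    (1 + L * x) ^ p = 1 + (p : R) * L * (x + (M * x ^ p + L * (x ^ 2 * aeval (L * x) G))) := by
  rw [one_add_pow_eq_of_poly hG (L * x), mul_pow_eq_of_pow_pred hp hLM]
  have hpp : x ^ p = x ^ (p - 1) * x := by
    conv_lhs => rw [(Nat.sub_add_cancel hp.one_le).symm, pow_succ]
  rw [hpp]
  ring

/-- **(A)** In a commutative ring in which `p` is a non-zero-divisor, if `L^(p-1) = p M` with
`L, M` in the Jacobson radical, the only `p`-th root of unity of the form `1 + L x` is `1`. -/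
theorem eq_zero_of_one_add_pow_eq_one {R : Type*} [CommRing R] {p : ℕ} (hp : p.Prime)
    (hreg : ∀ x : R, (p : R) * x = 0 → x = 0)
    {L M : R} (hL : L ∈ (⊥ : Ideal R).jacobson) (hM : M ∈ (⊥ : Ideal R).jacobson)
    (hLM : L ^ (p - 1) = p * M) (x : R) (h : (1 + L * x) ^ p = 1) : L * x = 0 := by
  obtain ⟨G, hG⟩ := exists_poly_one_add_pow hp
  have key := one_add_pow_eq_of_poly hG (L * x)
  have h1 := mul_pow_eq_of_pow_pred hp hLM x
  have hmem : M * x ^ (p - 1) + L * (x * aeval (L * x) G) ∈ (⊥ : Ideal R).jacobson :=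
    Ideal.add_mem _ (Ideal.mul_mem_right _ _ hM) (Ideal.mul_mem_right _ _ hL)
  have hU : IsUnit (1 + (M * x ^ (p - 1) + L * (x * aeval (L * x) G))) := by
    have := (Ideal.mem_jacobson_bot.mp hmem) 1
    rwa [mul_one, add_comm] at this
  have h2 : (p : R) * ((L * x) * (1 + (M * x ^ (p - 1) + L * (x * aeval (L * x) G)))) = 0 := by
    have h3 : (1 + L * x) ^ p - 1 =
        (p : R) * ((L * x) * (1 + (M * x ^ (p - 1) + L * (x * aeval (L * x) G)))) := by
      rw [key, h1]; ring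
    rw [← h3, h, sub_self]
  exact (hU.mul_left_eq_zero).mp (hreg _ h2)

/-- **(A)**, second form: a `p`-th root of unity congruent to `1` modulo `L` is `1`. -/
theorem eq_one_of_pow_eq_one_of_sub_one_eq_mul {R : Type*} [CommRing R] {p : ℕ} (hp : p.Prime)
    (hreg : ∀ x : R, (p : R) * x = 0 → x = 0)
    {L M : R} (hL : L ∈ (⊥ : Ideal R).jacobson) (hM : M ∈ (⊥ : Ideal R).jacobson)
    (hLM : L ^ (p - 1) = p * M) {z x : R} (hz : z - 1 = L * x) (h : z ^ p = 1) : z = 1 := by
  have hz' : z = 1 + L * x := by rw [← hz]; ring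
  rw [hz'] at h
  rw [hz', eq_zero_of_one_add_pow_eq_one hp hreg hL hM hLM x h, add_zero]

/-- **(B)** In an `I`-adically complete commutative ring, if `L^(p-1) = p M` with `L, M ∈ I`,
every element `1 + p L b` has a `p`-th root of the form `1 + L Z`. -/
theorem exists_one_add_pow_eq {R : Type*} [CommRing R] (I : Ideal R) [IsAdicComplete I R]
    {p : ℕ} (hp : p.Prime) {L M : R} (hL : L ∈ I) (hM : M ∈ I) (hLM : L ^ (p - 1) = p * M)
    (b : R) : ∃ Z : R, (1 + L * Z) ^ p = 1 + (p : R) * L * b := by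
  obtain ⟨G, hG⟩ := exists_poly_one_add_pow hp
  -- the nonlinear part
  let P₁ : R[X] := X ^ 2 * (G.map (Int.castRingHom R)).comp (C L * X)
  let N : R → R := fun Z => M * Z ^ p + L * P₁.eval Z
  have hN : ∀ Z, (1 + L * Z) ^ p = 1 + (p : R) * L * (Z + N Z) := by
    intro Z
    rw [one_add_mul_pow_eq hp hG hLM]
    simp only [N, P₁, eval_mul, eval_pow, eval_X, eval_comp, eval_C, aeval_def,
      eval₂_eq_eval_map]
    rfl
  have hlip : ∀ (n : ℕ) (Z Z' : R), Z - Z' ∈ I ^ n → N Z - N Z' ∈ I ^ (n + 1) := by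
    intro n Z Z' h
    obtain ⟨q₁, hq₁⟩ := sub_dvd_eval_sub Z Z' P₁
    obtain ⟨q₂, hq₂⟩ := sub_dvd_eval_sub Z Z' (X ^ p : R[X])
    simp only [eval_pow, eval_X] at hq₂
    have h1 : N Z - N Z' = M * ((Z - Z') * q₂) + L * ((Z - Z') * q₁) := by
      simp only [N]; rw [← hq₁, ← hq₂]; ring
    rw [h1, pow_succ']
    exact Ideal.add_mem _ (Ideal.mul_mem_mul hM (Ideal.mul_mem_right _ _ h))
      (Ideal.mul_mem_mul hL (Ideal.mul_mem_right _ _ h))
  let c : ℕ → R := fun n => Nat.recOn n b fun _ Z => b - N Z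
  have hc : ∀ n, c (n + 1) = b - N (c n) := fun n => rfl
  have hstep : ∀ n, c (n + 1) - c n ∈ I ^ n := by
    intro n
    induction n with
    | zero => simp
    | succ n ih =>
      have h1 : c (n + 1 + 1) - c (n + 1) = -(N (c (n + 1)) - N (c n)) := by
        rw [hc (n + 1), hc n]; ring
      rw [h1, Ideal.neg_mem_iff]
      exact hlip n _ _ ih
  have hcauchy : ∀ m n, m ≤ n → c m ≡ c n [SMOD (I ^ m • ⊤ : Ideal R)] := by
    intro m n hmn
    rw [smul_eq_mul, Ideal.mul_top, SModEq.sub_mem]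
    obtain ⟨k, rfl⟩ := Nat.exists_eq_add_of_le hmn
    clear hmn
    induction k with
    | zero => simp
    | succ k ih =>
      have h1 : c m - c (m + (k + 1)) = (c m - c (m + k)) - (c (m + k + 1) - c (m + k)) := by
        rw [← add_assoc]; ring
      rw [h1]
      exact Ideal.sub_mem _ ih (Ideal.pow_le_pow_right (Nat.le_add_right m k) (hstep (m + k)))
  obtain ⟨Z, hZ⟩ := IsPrecomplete.prec' c (hcauchy _ _)
  have hZ' : ∀ n, c n - Z ∈ I ^ n := by
    intro n
    have := hZ n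
    rwa [smul_eq_mul, Ideal.mul_top, SModEq.sub_mem] at this
  refine ⟨Z, ?_⟩
  rw [hN Z]
  have hfix : Z + N Z = b := by
    rw [← sub_eq_zero]
    apply IsHausdorff.haus' (I := I)
    intro n
    rw [smul_eq_mul, Ideal.mul_top, SModEq.sub_mem, sub_zero]
    have h1 : c (n + 1) - Z ∈ I ^ (n + 1) := hZ' (n + 1)
    have h2 : Z - c n ∈ I ^ n := by
      rw [← Ideal.neg_mem_iff]; simpa using hZ' n
    have h3 : N Z - N (c n) ∈ I ^ (n + 1) := hlip n _ _ h2
    have h4 : Z + N Z - b = -(c (n + 1) - Z) + (N Z - N (c n)) := by rw [hc n]; ring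
    rw [h4]
    exact Ideal.add_mem _ ((Ideal.neg_mem_iff _).mpr (Ideal.pow_le_pow_right (Nat.le_succ n) h1))
      (Ideal.pow_le_pow_right (Nat.le_succ n) h3)
  rw [hfix]

end Fermat.Agent.S56.H618
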